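import Mathlib
import Fermat.Agent.MUL.S48.W.G.Red.Defs
import Fermat.Agent.MUL.S48.W.G.Red.Model
import Fermat.Agent.MUL.S48.W.G.Red.Fund
import Fermat.Agent.MUL.Lib.GenusEq.Main
import Fermat.Agent.MUL.Orig.Lib.FrobTrace.Residue
import Fermat.Agent.MUL.Lib.RR.Hurwitz.Fibres
import Fermat.Agent.MUL.Orig.Lib.GoodRed.Places
import Fermat.Agent.MUL.Lib.GenusEq.Props
import Fermat.Agent.MUL.S48.W.G.Red.Branch.Count
import Fermat.Agent.MUL.Orig.Lib.GaussInt.FrobFormal
import Fermat.Agent.MUL.S48.W.G.Red.Igusa.DatDefs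
import Fermat.Agent.MUL.S48.W.G.Red.Int
import Fermat.Agent.MUL.S48.W.G.Red.Res
import Fermat.Agent.MUL.S48.W.A.Inputs
import Fermat.Agent.MUL.S48.W.H.Top

section MergeWrap_S48_W_G_P23_GenusGe -- from S48/W/G/P23/GenusGe.lean

set_option autoImplicit false
set_option linter.style.haveILetI false
set_option linter.unusedSectionVars false
set_option synthInstance.maxHeartbeats 400000
set_option maxHeartbeats 2000000

noncomputable section

namespace Fermat.Agent.S48WG23

open ModularCurve AlgebraicCurve IntermediateField Fermat.Agent.GaussInt Fermat.Agent.RR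
  Fermat.Agent.RRMod Fermat.Agent.GoodRed Fermat.Agent.GenusEq Fermat.Agent.S48WG

local notation "Kb" => AlgebraicClosure ℚ

variable {A : ValuationSubring Kb} {F₀ : IntermediateField ℚ (LaurentSeries ℚ)} {ℓ : ℕ}

/-- **genus lower bound at an auxiliary level**: `g(F) ≤ g(Fk)`. -/
theorem genusFF_ge_of_aux (hℓ : ℓ.Prime) (hA : A.LiesOverPrime ℓ)
    (hFk : IsRRField (IsLocalRing.ResidueField A) ↥(resField A F₀))
    {x : LaurentSeries Kb} (hx : x ∈ gaussSub A (laurentBaseChange Kb F₀))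
    (hbase : IsBaseFun A F₀ hx)
    (hfund : Module.finrank (IsLocalRing.ResidueField A)⟮resElt hx⟯ ↥(resField A F₀) ≤
      Module.finrank Kb⟮barElt hx⟯ ↥(laurentBaseChange Kb F₀))
    (hchar0 : 12 * genusFF Kb ↥(laurentBaseChange Kb F₀) +
        6 * poleCount Kb ↥(laurentBaseChange Kb F₀) (barElt hx) =
      12 + Module.finrank Kb⟮barElt hx⟯ ↥(laurentBaseChange Kb F₀))
    (hcusp : poleCount (IsLocalRing.ResidueField A) ↥(resField A F₀) (resElt hx) =
      poleCount Kb ↥(laurentBaseChange Kb F₀) (barElt hx))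
    (r : ℕ) [NeZero r] (hr : r = 4 ∨ r = 9) (hℓr : ¬ ℓ ∣ r)
    (ι : ↥(modularFunctionFieldFullC (IsLocalRing.ResidueField A) r) →ₐ[IsLocalRing.ResidueField A]
      ↥(resField A F₀))
    (hι : ι (jC (IsLocalRing.ResidueField A) r) = resElt hx) :
    genusFF Kb ↥(laurentBaseChange Kb F₀) ≤
      genusFF (IsLocalRing.ResidueField A) ↥(resField A F₀) := by
  haveI : IsAlgClosed (IsLocalRing.ResidueField A) :=
    Fermat.Agent.FrobTrace.isAlgClosed_residueField A
  set k := IsLocalRing.ResidueField A with hk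
  obtain ⟨-, -, -, hfdk, hsep, hle⟩ := hbase
  have hn : Module.finrank k⟮resElt hx⟯ ↥(resField A F₀) =
      Module.finrank Kb⟮barElt hx⟯ ↥(laurentBaseChange Kb F₀) := le_antisymm hfund hle
  have hB := isRRField_fullC' k r
  have hgB : genusFF k ↥(modularFunctionFieldFullC k r) = 0 := by
    have h1 := genusLe r ℓ hℓ hℓr A hA
    rw [genusFF_bar_base r hr] at h1
    exact Nat.le_zero.mp h1
  haveI : FiniteDimensional k⟮ι (jC k r)⟯ ↥(resField A F₀) := by
    rw [hι]; exact hfdk
  haveI : Algebra.IsSeparable k⟮ι (jC k r)⟯ ↥(resField A F₀) := by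
    rw [hι]; exact hsep
  obtain ⟨n', hdeg, hineq⟩ := hurwitz_core rationalOfGenusZero poleCountFibres hB hFk hgB ι
    (jC k r) (transcendental_jC k r)
  rw [hι] at hdeg hineq
  rw [degreeModL r ℓ hℓ hℓr A hA, hn] at hdeg
  rw [cuspCountModL r ℓ hℓ hℓr A hA, hcusp] at hineq
  have hdeg' : (dedekindPsi r : ℤ) * (n' : ℤ) =
      (Module.finrank Kb⟮barElt hx⟯ ↥(laurentBaseChange Kb F₀) : ℤ) := by exact_mod_cast hdeg
  have hchar0' : (12 : ℤ) * (genusFF Kb ↥(laurentBaseChange Kb F₀) : ℤ) +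
      6 * (poleCount Kb ↥(laurentBaseChange Kb F₀) (barElt hx) : ℤ) =
      12 + (Module.finrank Kb⟮barElt hx⟯ ↥(laurentBaseChange Kb F₀) : ℤ) := by
    exact_mod_cast hchar0
  have goal : (genusFF Kb ↥(laurentBaseChange Kb F₀) : ℤ) ≤
      (genusFF k ↥(resField A F₀) : ℤ) := by
    rcases hr with rfl | rfl
    · rw [cuspCount_four] at hineq
      rw [dedekindPsi_four] at hdeg'
      push_cast at hineq hdeg'
      linarith
    · rw [cuspCount_nine] at hineq
      rw [dedekindPsi_nine] at hdeg'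
      push_cast at hineq hdeg'
      linarith
  exact_mod_cast goal

/-- **genus equality at an auxiliary level.** -/
theorem genusFF_eq_of_aux (hℓ : ℓ.Prime) (hA : A.LiesOverPrime ℓ) (hint : IsIntGen A F₀)
    (hsurj : ResSurj A F₀)
    (hF : IsRRField Kb ↥(laurentBaseChange Kb F₀))
    (hFk : IsRRField (IsLocalRing.ResidueField A) ↥(resField A F₀))
    {x : LaurentSeries Kb} (hx : x ∈ gaussSub A (laurentBaseChange Kb F₀))
    (hbase : IsBaseFun A F₀ hx)
    (hfund : Module.finrank (IsLocalRing.ResidueField A)⟮resElt hx⟯ ↥(resField A F₀) ≤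
      Module.finrank Kb⟮barElt hx⟯ ↥(laurentBaseChange Kb F₀))
    (hchar0 : 12 * genusFF Kb ↥(laurentBaseChange Kb F₀) +
        6 * poleCount Kb ↥(laurentBaseChange Kb F₀) (barElt hx) =
      12 + Module.finrank Kb⟮barElt hx⟯ ↥(laurentBaseChange Kb F₀))
    (hcusp : poleCount (IsLocalRing.ResidueField A) ↥(resField A F₀) (resElt hx) =
      poleCount Kb ↥(laurentBaseChange Kb F₀) (barElt hx))
    (r : ℕ) [NeZero r] (hr : r = 4 ∨ r = 9) (hℓr : ¬ ℓ ∣ r)
    (ι : ↥(modularFunctionFieldFullC (IsLocalRing.ResidueField A) r) →ₐ[IsLocalRing.ResidueField A]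
      ↥(resField A F₀))
    (hι : ι (jC (IsLocalRing.ResidueField A) r) = resElt hx) :
    genusFF Kb ↥(laurentBaseChange Kb F₀) =
      genusFF (IsLocalRing.ResidueField A) ↥(resField A F₀) := by
  haveI : IsAlgClosed (IsLocalRing.ResidueField A) :=
    Fermat.Agent.FrobTrace.isAlgClosed_residueField A
  haveI : Infinite (IsLocalRing.ResidueField A) := IsAlgClosed.instInfinite
  have h : GaussHyp A F₀ ℓ := ⟨hℓ, hA, hint⟩
  exact le_antisymm
    (genusFF_ge_of_aux hℓ hA hFk hx hbase hfund hchar0 hcusp r hr hℓr ι hι)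
    (Fermat.Agent.Deuring.genusFF_le (redValSetup h hsurj hF hFk)
      (hasLattice_redValSetup h hsurj hF hFk))

/-- **the good reduction input at an auxiliary level** (`RedInput` of G-RED). -/
theorem redInput_of_aux (hℓ : ℓ.Prime) (hA : A.LiesOverPrime ℓ) (hint : IsIntGen A F₀)
    (hsurj : ResSurj A F₀)
    (hF : IsRRField Kb ↥(laurentBaseChange Kb F₀))
    (hFk : IsRRField (IsLocalRing.ResidueField A) ↥(resField A F₀))
    {x : LaurentSeries Kb} (hx : x ∈ gaussSub A (laurentBaseChange Kb F₀))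
    (hbase : IsBaseFun A F₀ hx)
    (hfund : Module.finrank (IsLocalRing.ResidueField A)⟮resElt hx⟯ ↥(resField A F₀) ≤
      Module.finrank Kb⟮barElt hx⟯ ↥(laurentBaseChange Kb F₀))
    (hchar0 : 12 * genusFF Kb ↥(laurentBaseChange Kb F₀) +
        6 * poleCount Kb ↥(laurentBaseChange Kb F₀) (barElt hx) =
      12 + Module.finrank Kb⟮barElt hx⟯ ↥(laurentBaseChange Kb F₀))
    (hcusp : poleCount (IsLocalRing.ResidueField A) ↥(resField A F₀) (resElt hx) =
      poleCount Kb ↥(laurentBaseChange Kb F₀) (barElt hx))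
    (r : ℕ) [NeZero r] (hr : r = 4 ∨ r = 9) (hℓr : ¬ ℓ ∣ r)
    (ι : ↥(modularFunctionFieldFullC (IsLocalRing.ResidueField A) r) →ₐ[IsLocalRing.ResidueField A]
      ↥(resField A F₀))
    (hι : ι (jC (IsLocalRing.ResidueField A) r) = resElt hx) :
    RedInput A F₀ :=
  ⟨hF, hFk, hsurj,
    genusFF_eq_of_aux hℓ hA hint hsurj hF hFk hx hbase hfund hchar0 hcusp r hr hℓr ι hι,
    x, hx, hbase⟩

end Fermat.Agent.S48WG23
end
end MergeWrap_S48_W_G_P23_GenusGe

section MergeWrap_S48_W_G_P23_CuspRed -- from S48/W/G/P23/CuspRed.lean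

set_option autoImplicit false
set_option linter.unusedSectionVars false
set_option linter.style.haveILetI false
set_option synthInstance.maxHeartbeats 400000

noncomputable section

namespace Fermat.Agent.S48WG23

open ModularCurve AlgebraicCurve IntermediateField Fermat.Agent.GaussInt Fermat.Agent.RR
  Fermat.Agent.GoodRed Fermat.Agent.GenusEq Fermat.Agent.S48WG

local notation "Kb" => AlgebraicClosure ℚ

variable {A : ValuationSubring Kb} {F₀ : IntermediateField ℚ (LaurentSeries ℚ)} {ℓ : ℕ}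

/-- the degree data of the reduction model of G-MODEL, from a base function and the fundamental
inequality. -/
theorem degData_redModel (hℓ : ℓ.Prime) (hA : A.LiesOverPrime ℓ) (hint : IsIntGen A F₀)
    (hsurj : ResSurj A F₀)
    {x : LaurentSeries Kb} (hx : x ∈ gaussSub A (laurentBaseChange Kb F₀))
    (hbase : IsBaseFun A F₀ hx)
    (hfund : Module.finrank (IsLocalRing.ResidueField A)⟮resElt hx⟯ ↥(resField A F₀) ≤
      Module.finrank Kb⟮barElt hx⟯ ↥(laurentBaseChange Kb F₀)) :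
    DegData (redModel (redHyp hℓ hA hint) hsurj hx hbase.2.2.1)
      (Module.finrank Kb⟮barElt hx⟯ ↥(laurentBaseChange Kb F₀)) := by
  obtain ⟨-, hfd, hxt, hfdk, hsep, hle⟩ := hbase
  exact
    { deg := rfl
      degk := le_antisymm hfund hle
      sepk := hsep
      pos := Module.finrank_pos }

/-- **(CUSP)** the number of poles of the base function does not change under reduction. -/
theorem poleCount_resElt_eq (hℓ : ℓ.Prime) (hA : A.LiesOverPrime ℓ) (hint : IsIntGen A F₀)
    (hsurj : ResSurj A F₀)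
    {x : LaurentSeries Kb} (hx : x ∈ gaussSub A (laurentBaseChange Kb F₀))
    (hbase : IsBaseFun A F₀ hx)
    (hfund : Module.finrank (IsLocalRing.ResidueField A)⟮resElt hx⟯ ↥(resField A F₀) ≤
      Module.finrank Kb⟮barElt hx⟯ ↥(laurentBaseChange Kb F₀))
    (u : Kb) (hu : u ∈ A) (hu0 : u ≠ 0)
    (hunram : ∀ c : Kb, c ≠ 0 → c ≠ u → fibreCard Kb (barElt hx) c =
      Module.finrank Kb⟮barElt hx⟯ ↥(laurentBaseChange Kb F₀)) :
    poleCount (IsLocalRing.ResidueField A) ↥(resField A F₀) (resElt hx) =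
      poleCount Kb ↥(laurentBaseChange Kb F₀) (barElt hx) := by
  haveI : IsAlgClosed (IsLocalRing.ResidueField A) :=
    Fermat.Agent.FrobTrace.isAlgClosed_residueField A
  exact poleCount_xbar_eq (redModel (redHyp hℓ hA hint) hsurj hx hbase.2.2.1)
    (Module.finrank Kb⟮barElt hx⟯ ↥(laurentBaseChange Kb F₀))
    (degData_redModel hℓ hA hint hsurj hx hbase hfund) u hu hu0 hunram

end Fermat.Agent.S48WG23
end
end MergeWrap_S48_W_G_P23_CuspRed

section MergeWrap_S48_W_G_P23_CharZero -- from S48/W/G/P23/CharZero.lean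

/-!
# S48 wall (W), block G, seat G-23 CHAR0 (helper10)

Generic tame Riemann–Hurwitz in characteristic `0` for a covering of the `x`-line which is
unramified outside `{0, u, ∞}`, with all ramification indices `3` over `0` and `2` over `u`
("no elliptic points"):  `12 g + 6 C = 12 + n`, where `n = [F : K(x)]` and `C` is the number of
poles of `x`.  In the application `x = j`, `u = 1728`, `F = FOneBar M'` (`M' ≥ 4`), `C` = number of
cusps.  A direct consequence of `RRHur.hurwitz_formula_fibres`.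
-/

set_option autoImplicit false
set_option linter.style.haveILetI false
set_option linter.unusedSectionVars false

noncomputable section

open AlgebraicCurve IntermediateField

namespace Fermat.Agent.S48WG.P23

open Fermat.Agent.RR Fermat.Agent.RRHur

variable {K F : Type*} [Field K] [Field F] [Algebra K F]

/-- **CHAR0** (`ℤ`-form): tame Hurwitz over the `x`-line with branch values `0` (index `3`),
`u` (index `2`) and `∞`. -/
theorem hurwitz_char0_int [IsAlgClosed K] [CharZero K] (h : IsRRField K F) {x : F}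
    (hx : Transcendental K x) [FiniteDimensional K⟮x⟯ F] [Algebra.IsSeparable K⟮x⟯ F]
    (u : K) (hu : u ≠ 0)
    (hunr : ∀ c : K, c ≠ 0 → c ≠ u →
      Nat.card {v : Place K F // 0 < v.ord (x - algebraMap K F c)} = Module.finrank K⟮x⟯ F)
    (h0 : 3 * Nat.card {v : Place K F // 0 < v.ord (x - algebraMap K F 0)}
      = Module.finrank K⟮x⟯ F)
    (h2 : 2 * Nat.card {v : Place K F // 0 < v.ord (x - algebraMap K F u)}
      = Module.finrank K⟮x⟯ F) :
    12 * (genusFF K F : ℤ) + 6 * (Nat.card {v : Place K F // v.ord x < 0} : ℤ)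
      = 12 + (Module.finrank K⟮x⟯ F : ℤ) := by
  classical
  have hS : ∀ c : K, c ∉ ({0, u} : Finset K) →
      Nat.card {v : Place K F // 0 < v.ord (x - algebraMap K F c)} = Module.finrank K⟮x⟯ F := by
    intro c hc
    rw [Finset.mem_insert, Finset.mem_singleton, not_or] at hc
    exact hunr c hc.1 hc.2
  have hf := hurwitz_formula_fibres h hx ({0, u} : Finset K) hS
  rw [Finset.sum_pair hu.symm] at hf
  have h0' : (3 : ℤ) * (Nat.card {v : Place K F // 0 < v.ord (x - algebraMap K F 0)} : ℤ)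
      = (Module.finrank K⟮x⟯ F : ℤ) := by exact_mod_cast h0
  have h2' : (2 : ℤ) * (Nat.card {v : Place K F // 0 < v.ord (x - algebraMap K F u)} : ℤ)
      = (Module.finrank K⟮x⟯ F : ℤ) := by exact_mod_cast h2
  linarith

/-- **CHAR0**: `12 g + 6 C = 12 + n`. -/
theorem hurwitz_char0 [IsAlgClosed K] [CharZero K] (h : IsRRField K F) {x : F}
    (hx : Transcendental K x) [FiniteDimensional K⟮x⟯ F]
    (u : K) (hu : u ≠ 0)
    (hunr : ∀ c : K, c ≠ 0 → c ≠ u →
      Nat.card {v : Place K F // 0 < v.ord (x - algebraMap K F c)} = Module.finrank K⟮x⟯ F)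
    (h0 : 3 * Nat.card {v : Place K F // 0 < v.ord x} = Module.finrank K⟮x⟯ F)
    (h2 : 2 * Nat.card {v : Place K F // 0 < v.ord (x - algebraMap K F u)}
      = Module.finrank K⟮x⟯ F) :
    12 * genusFF K F + 6 * Nat.card {v : Place K F // v.ord x < 0}
      = 12 + Module.finrank K⟮x⟯ F := by
  haveI : Algebra.IsSeparable K⟮x⟯ F := inferInstance
  have h0' : 3 * Nat.card {v : Place K F // 0 < v.ord (x - algebraMap K F 0)}
      = Module.finrank K⟮x⟯ F := by
    simpa using h0
  have := hurwitz_char0_int h hx u hu hunr h0' h2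
  exact_mod_cast this

end Fermat.Agent.S48WG.P23

namespace Fermat.Agent.S48WG23

open Fermat.Agent.RR Fermat.Agent.GoodRed Fermat.Agent.GenusEq

/-- **CHAR0** in the form of the G-23 blueprint (helper94): `fibreCard` / `poleCount`. -/
theorem twelve_genusFF_of_fibres {K F : Type} [Field K] [Field F] [Algebra K F] [IsAlgClosed K]
    [CharZero K] (h : IsRRField K F) {x : F} (hx : Transcendental K x)
    [FiniteDimensional K⟮x⟯ F] (u : K) (hu0 : u ≠ 0)
    (hunr : ∀ c : K, c ≠ 0 → c ≠ u → fibreCard K x c = Module.finrank K⟮x⟯ F)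
    (h0 : 3 * fibreCard K x 0 = Module.finrank K⟮x⟯ F)
    (hu : 2 * fibreCard K x u = Module.finrank K⟮x⟯ F) :
    12 * genusFF K F + 6 * poleCount K F x = 12 + Module.finrank K⟮x⟯ F := by
  haveI : Algebra.IsSeparable K⟮x⟯ F := inferInstance
  have hint := Fermat.Agent.S48WG.P23.hurwitz_char0_int h hx u hu0
    (fun c hc0 hcu => by rw [← fibreCard_eq_card_zeros hx c]; exact hunr c hc0 hcu)
    (by rw [← fibreCard_eq_card_zeros hx 0]; exact h0)
    (by rw [← fibreCard_eq_card_zeros hx u]; exact hu)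
  unfold poleCount
  exact_mod_cast hint

end Fermat.Agent.S48WG23
end
end MergeWrap_S48_W_G_P23_CharZero

section MergeWrap_S48_W_G_Red_Branch_SHyp -- from S48/W/G/Red/Branch/SHyp.lean

set_option autoImplicit false

noncomputable section

namespace Fermat.Agent.S48WG

open Fermat.Agent.S24

variable (A : ValuationSubring Kbar)

theorem br_natCast_mem (n : ℕ) : (n : Kbar) ∈ A := by
  have : ((n : A) : Kbar) = (n : Kbar) := by simp
  rw [← this]
  exact (n : A).2

theorem br_1728_mem : (1728 : Kbar) ∈ A := by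
  have := br_natCast_mem A 1728
  simpa using this

/-- `S ⊆ A`. -/
theorem brS_mem : ∀ c ∈ brS, c ∈ A := by
  intro c hc
  rcases mem_brS.mp hc with rfl | rfl
  · exact A.zero_mem
  · exact br_1728_mem A

variable {A}

/-- `1728` is not zero in the residue field, `ℓ ≥ 5`. -/
theorem br_residue_1728_ne_zero {ℓ : ℕ} (hℓ : ℓ.Prime) (h5 : 5 ≤ ℓ) (hA : A.LiesOverPrime ℓ)
    (h : (1728 : Kbar) ∈ A) : IsLocalRing.residue A ⟨1728, h⟩ ≠ 0 := by
  haveI := Fermat.Agent.GaussIntFP.charP_residue_of_liesOver A hℓ hA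
  have h1 : (⟨1728, h⟩ : A) = ((1728 : ℕ) : A) := by
    apply Subtype.ext
    show (1728 : Kbar) = (((1728 : ℕ) : A) : Kbar)
    push_cast
    rfl
  rw [h1, map_natCast]
  intro h0
  have hdvd : ℓ ∣ 1728 := (CharP.cast_eq_zero_iff (IsLocalRing.ResidueField A) ℓ 1728).mp h0
  have h2 : (1728 : ℕ) = 2 ^ 6 * 3 ^ 3 := by norm_num
  rw [h2] at hdvd
  rcases (Nat.Prime.dvd_mul hℓ).mp hdvd with h3 | h3
  · have := (Nat.prime_dvd_prime_iff_eq hℓ Nat.prime_two).mp (hℓ.dvd_of_dvd_pow h3)
    omega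
  · have := (Nat.prime_dvd_prime_iff_eq hℓ Nat.prime_three).mp (hℓ.dvd_of_dvd_pow h3)
    omega

/-- the residues of the elements of `S` are distinct. -/
theorem brS_inj {ℓ : ℕ} (hℓ : ℓ.Prime) (h5 : 5 ≤ ℓ) (hA : A.LiesOverPrime ℓ) :
    ∀ c ∈ brS, ∀ c' ∈ brS, ∀ (hc : c ∈ A) (hc' : c' ∈ A),
      IsLocalRing.residue A ⟨c, hc⟩ = IsLocalRing.residue A ⟨c', hc'⟩ → c = c' := by
  intro c hcS c' hcS' hc hc' h
  have hz : ∀ (h0 : (0 : Kbar) ∈ A), IsLocalRing.residue A ⟨0, h0⟩ = 0 := fun h0 => by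
    have : (⟨0, h0⟩ : A) = 0 := rfl
    rw [this, map_zero]
  rcases mem_brS.mp hcS with rfl | rfl <;> rcases mem_brS.mp hcS' with rfl | rfl
  · rfl
  · exfalso
    rw [hz] at h
    exact br_residue_1728_ne_zero hℓ h5 hA hc' h.symm
  · exfalso
    rw [hz] at h
    exact br_residue_1728_ne_zero hℓ h5 hA hc h
  · rfl

/-- the nonzero elements of `S` are units of `A`. -/
theorem brS_unit {ℓ : ℕ} (hℓ : ℓ.Prime) (h5 : 5 ≤ ℓ) (hA : A.LiesOverPrime ℓ) :
    ∀ c ∈ brS, c ≠ 0 → c⁻¹ ∈ A := by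
  intro c hcS hc0
  rcases mem_brS.mp hcS with rfl | rfl
  · exact absurd rfl hc0
  · have hmem := br_1728_mem A
    have hres := br_residue_1728_ne_zero hℓ h5 hA hmem
    have hunit : IsUnit (⟨1728, hmem⟩ : A) := by
      by_contra hnu
      apply hres
      rw [IsLocalRing.residue_eq_zero_iff]
      exact (IsLocalRing.mem_maximalIdeal _).mpr hnu
    obtain ⟨u, hu⟩ := hunit
    have h1 : ((u⁻¹ : Aˣ) : A) * (⟨1728, hmem⟩ : A) = 1 := by
      rw [← hu]
      exact Units.inv_mul u
    have h2 : (((u⁻¹ : Aˣ) : A) : Kbar) * 1728 = 1 := by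
      have := congrArg (fun t : A => (t : Kbar)) h1
      simpa using this
    have h3 : (1728 : Kbar)⁻¹ = (((u⁻¹ : Aˣ) : A) : Kbar) := by
      rw [inv_eq_iff_eq_inv]
      exact (eq_inv_of_mul_eq_one_right h2)
    rw [h3]
    exact ((u⁻¹ : Aˣ) : A).2

end Fermat.Agent.S48WG
end
end MergeWrap_S48_W_G_Red_Branch_SHyp

section MergeWrap_S48_W_G_P23_Final -- from S48/W/G/P23/Final.lean

set_option autoImplicit false
set_option linter.style.haveILetI false
set_option linter.unusedSectionVars false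
set_option linter.unusedVariables false
set_option synthInstance.maxHeartbeats 400000
set_option maxHeartbeats 2000000

noncomputable section

namespace Fermat.Agent.S48WG23

open ModularCurve AlgebraicCurve IntermediateField Fermat.Agent.GaussInt Fermat.Agent.RR
  Fermat.Agent.RRMod Fermat.Agent.GoodRed Fermat.Agent.GenusEq Fermat.Agent.S48WG
  Fermat.Agent.S48W

local notation "Kb" => AlgebraicClosure ℚ

/-- (ELL) the fibres of `x = j(q^M)` on `ℚ̄ F₁(M)`, `M ≥ 4`, over `0` and `1728` have `n/3` and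
`n/2` points (`Γ₁(M)` has no elliptic elements). -/
def EllOneStatement : Prop :=
  ∀ (M : ℕ) [NeZero M], 4 ≤ M →
    ∀ x : ↥(FOneBar M), (x : LaurentSeries Kb) = qExpand Kb M (jqModC Kb) →
      3 * fibreCard Kb x 0 = Module.finrank ↥(Kb⟮x⟯) ↥(FOneBar M) ∧
      2 * fibreCard Kb x 1728 = Module.finrank ↥(Kb⟮x⟯) ↥(FOneBar M)

/-- (FRICKE) the genus-`0` base `B = k(j̄(q^d) : d ∣ r)` embeds in the residue field of
`ℚ̄ F₁(M)`, `r ∣ M`, at a place over `ℓ ∤ M`, with `j̄ ↦ ` the residue of the base function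
`j(q^M)` (reduction of `(q ↦ q^{M/r}) ∘ W_r`). -/
def FrickeBaseStatement (r : ℕ) [NeZero r] : Prop :=
  ∀ (M : ℕ) [NeZero M], r ∣ M → ∀ (ℓ : ℕ), ℓ.Prime → ¬ ℓ ∣ M →
    ∀ A : ValuationSubring Kb, A.LiesOverPrime ℓ →
      ∀ (x : LaurentSeries Kb) (hx : x ∈ gaussSub A (laurentBaseChange Kb (FOne M))),
        x = qExpand Kb M (jqModC Kb) → IsBaseFun A (FOne M) hx →
        ∃ ι : ↥(modularFunctionFieldFullC (IsLocalRing.ResidueField A) r)
            →ₐ[IsLocalRing.ResidueField A] ↥(resField A (FOne M)),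
          ι (jC (IsLocalRing.ResidueField A) r) = resElt hx

variable {A : ValuationSubring Kb} {ℓ : ℕ}

/-- **the good reduction input at an auxiliary level**, from the base function, the branch data
in characteristic `0` and the genus-`0` base. -/
theorem redInput23_of_base (M : ℕ) [NeZero M] (hℓ : ℓ.Prime) (hA : A.LiesOverPrime ℓ)
    {x : LaurentSeries Kb} (hx : x ∈ gaussSub A (laurentBaseChange Kb (FOne M)))
    (hbase : IsBaseFun A (FOne M) hx)
    (hunr : ∀ c : Kb, c ≠ 0 → c ≠ 1728 → fibreCard Kb (barElt hx) c =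
      Module.finrank Kb⟮barElt hx⟯ ↥(laurentBaseChange Kb (FOne M)))
    (h0 : 3 * fibreCard Kb (barElt hx) 0 =
      Module.finrank Kb⟮barElt hx⟯ ↥(laurentBaseChange Kb (FOne M)))
    (h1728 : 2 * fibreCard Kb (barElt hx) 1728 =
      Module.finrank Kb⟮barElt hx⟯ ↥(laurentBaseChange Kb (FOne M)))
    (r : ℕ) [NeZero r] (hr : r = 4 ∨ r = 9) (hℓr : ¬ ℓ ∣ r)
    (ι : ↥(modularFunctionFieldFullC (IsLocalRing.ResidueField A) r)
      →ₐ[IsLocalRing.ResidueField A] ↥(resField A (FOne M)))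
    (hι : ι (jC (IsLocalRing.ResidueField A) r) = resElt hx) :
    RedInput A (FOne M) := by
  have hint : IsIntGen A (FOne M) := isIntGen_FOne A M
  have hsurj : ResSurj A (FOne M) := resSurj A (FOne M)
  have hF : IsRRField Kb ↥(laurentBaseChange Kb (FOne M)) :=
    Fermat.Agent.S48WA.isRRField_FOneBar M (functionFieldOne M)
  have hFk : IsRRField (IsLocalRing.ResidueField A) ↥(resField A (FOne M)) :=
    isRRField_of_resElt hx hbase.2.2.1 hbase.2.2.2.1 hbase.2.2.2.2.1
  have hfund := (fund_of_barElt hx (redModel (redHyp hℓ hA hint) hsurj hx hbase.2.2.1)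
    rfl rfl hbase.2.1).2
  haveI : FiniteDimensional Kb⟮barElt hx⟯ ↥(laurentBaseChange Kb (FOne M)) := hbase.2.1
  have h1728ne : (1728 : Kb) ≠ 0 := by norm_num
  have hchar0 := twelve_genusFF_of_fibres hF hbase.1 (1728 : Kb) h1728ne hunr h0 h1728
  have hcusp := poleCount_resElt_eq hℓ hA hint hsurj hx hbase hfund (1728 : Kb)
    (br_1728_mem A) h1728ne hunr
  exact redInput_of_aux hℓ hA hint hsurj hF hFk hx hbase hfund hchar0 hcusp r hr hℓr ι hι

/-- **G-23**: the good reduction input of `X₁(M)` at a place over `p`, `r ∣ M` (`r = 4` or `9`),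
`p ∤ M`, from the deliverables of G-IGUSA, G-BRANCH, ELL and FRICKE. -/
theorem goodRedOne23 (hIg : IgusaOneStatement) (hBr : BranchOneStatement)
    (hEll : EllOneStatement) (r : ℕ) [NeZero r] (hr : r = 4 ∨ r = 9)
    (hFr : FrickeBaseStatement r) (M : ℕ) [NeZero M] (hrM : r ∣ M)
    (hℓ : ℓ.Prime) (hℓM : ¬ ℓ ∣ M) (hA : A.LiesOverPrime ℓ) :
    RedInput A (FOne M) := by
  have hM0 : 0 < M := Nat.pos_of_ne_zero (NeZero.ne M)
  have hM4 : 4 ≤ M := by
    have := Nat.le_of_dvd hM0 hrM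
    rcases hr with rfl | rfl <;> omega
  have hℓr : ¬ ℓ ∣ r := fun h => hℓM (h.trans hrM)
  obtain ⟨x, hx, hxe, hbase⟩ := hIg M (by omega) ℓ hℓ hℓM A hA
  have hxe' : ((barElt hx : ↥(FOneBar M)) : LaurentSeries Kb) = qExpand Kb M (jqModC Kb) := hxe
  obtain ⟨ι, hι⟩ := hFr M hrM ℓ hℓ hℓM A hA x hx hxe hbase
  exact redInput23_of_base M hℓ hA hx hbase
    (hBr M (by omega) (barElt hx) hxe')
    (hEll M hM4 (barElt hx) hxe').1 (hEll M hM4 (barElt hx) hxe').2 r hr hℓr ι hι

/-- **the deliverable `GoodRedOne M` at the levels of the gluing** (`4 ∣ M` or `9 ∣ M`):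
G-RED at `p ≥ 5`, G-23 at `p = 3` (`4 ∣ M`) and at `p = 2` (`9 ∣ M`). -/
theorem goodRedOne_of_leaves (hIg : IgusaOneStatement) (hBr : BranchOneStatement)
    (hEll : EllOneStatement) (hFr4 : FrickeBaseStatement 4) (hFr9 : FrickeBaseStatement 9)
    (hFive : ∀ (M : ℕ) [NeZero M], 2 ≤ M → GoodRedOneFive M)
    (M : ℕ) [NeZero M] (h49 : 4 ∣ M ∨ 9 ∣ M) : GoodRedOne M := by
  intro p hp hpM A hA
  have hM0 : 0 < M := Nat.pos_of_ne_zero (NeZero.ne M)
  have hM2 : 2 ≤ M := by
    rcases h49 with h | h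
    · have := Nat.le_of_dvd hM0 h; omega
    · have := Nat.le_of_dvd hM0 h; omega
  by_cases h5 : 5 ≤ p
  · exact hFive M hM2 p hp h5 hpM A hA
  · have hp23 : p = 2 ∨ p = 3 := by
      have h2 := hp.two_le
      have hlt : p < 5 := not_le.mp h5
      interval_cases p
      · exact Or.inl rfl
      · exact Or.inr rfl
      · exact absurd hp (by decide)
    rcases hp23 with rfl | rfl
    · -- `p = 2`: then `4 ∤ M`, so `9 ∣ M`
      have h9 : 9 ∣ M := by
        rcases h49 with h | h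
        · exact absurd ((show 2 ∣ 4 by norm_num).trans h) hpM
        · exact h
      exact goodRedOne23 hIg hBr hEll 9 (Or.inr rfl) hFr9 M h9 hp hpM hA
    · -- `p = 3`: then `9 ∤ M`, so `4 ∣ M`
      have h4 : 4 ∣ M := by
        rcases h49 with h | h
        · exact h
        · exact absurd ((show 3 ∣ 9 by norm_num).trans h) hpM
      exact goodRedOne23 hIg hBr hEll 4 (Or.inl rfl) hFr4 M h4 hp hpM hA

end Fermat.Agent.S48WG23
end
end MergeWrap_S48_W_G_P23_Final
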